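import Fermat.Agent.CAR.KLm.ONBasis
import Fermat.Agent.TOR.T1.Defs
import Fermat.Agent.GAL.KLB.IntRed
import Fermat.Agent.GAL.KL.Lattice

/-!
# CAR / FQ2 : package FQ2-R1 : integrality over `K[t]` passes to the reductions (finite family of valuations)

Port of `TOR/T1/IntRed2.lean` (`T1.isInt_rd2`, two valuations) to the family setting of `CAR/KLm`.
-/

set_option autoImplicit false

open Polynomial ModularCurve AlgebraicCurve

noncomputable section

namespace Fermat.Agent.CAR.FQ2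

open Fermat.Agent.GAL.KL Fermat.Agent.GAL.KLC Fermat.Agent.CAR.KLm Fermat.Agent.TOR.T1
open Fermat.Agent.GAL

variable {K F k Γ₀ ι : Type*} [Field K] [Field F] [Algebra K F] [Field k]
  [LinearOrderedCommGroupWithZero Γ₀] [Fintype ι] [Nonempty ι]
  {v : ι → Valuation F Γ₀}

/-- **FQ2-R1.**  If `z` is integral over `K[t]` and `NN v z ≤ 1`, then each reduction of `z` is integral
over `k[τ]`, `τ` the reduction of `t`.
PROOF: copy `T1.isInt_rd2` (file `TOR/T1/IntRed2.lean`) replacing `KL2.exists_ON2_basis`, `KL2.NN…` by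
`KLm.exists_ONm_basis`, `KLm.NN…`, `S.G1` by `S.G i`, and `hON (P j) 1` (stated with the base index `o`) by
`S.eq_aeval o i`. -/
theorem isInt_rdm [IsAlgClosed K] [CharZero K] {t : F} (S : Setup K v t) {o : ι} {d : ℕ}
    (b : Fin d → F) (hb : ONm K v o t b) (hbs : Spans K t b)
    (i : ι) {ρ : (v i).integer →+* LaurentSeries k} (hρ : IsRed K (v i) ρ)
    {τ : LaurentSeries k} (ht : Rd ρ t τ) {z : F} {φ : LaurentSeries k} (hz : IsInt K t z)
    (h1 : Rd ρ z φ) (h2 : NN v z ≤ 1) : IsInt k τ φ := by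
  obtain ⟨ht1, rfl⟩ := ht
  obtain ⟨hz1, rfl⟩ := h1
  obtain ⟨a, ha⟩ := exists_basis_BB (S.G o).inj b (hb.inj S) hbs
  obtain ⟨e, he, hON⟩ := exists_ONm_basis S b hb hbs (BB K t) a ha
  have hemem : ∀ j, IsInt K t (e j) := fun j =>
    (he.2 (e j)).2 ⟨Pi.single j 1, by rw [comb_single, map_one, one_mul]⟩
  have hP : ∀ j, ∃ P : Fin d → K[X], z * e j = comb K t P e := fun j =>
    (he.2 _).1 (hz.mul (hemem j))
  choose P hP using hP
  have hv : ∀ j l n, v i (algebraMap K F ((P j l).coeff n)) ≤ 1 := by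
    intro j l
    refine (S.G i (P j l) 1).1 ?_
    rw [S.eq_aeval i o]
    refine (hON (P j) 1).1 ?_ l
    rw [← hP j]
    calc NN v (z * e j) ≤ NN v z * NN v (e j) := NN_mul_le _ _
      _ = NN v z := by rw [hON.NN_eq_one j, mul_one]
      _ ≤ 1 := h2
  have hQ : ∀ j l, ∃ Q : (KLB.AK K (v i))[X], Q.map (KLB.AK K (v i)).subtype = P j l := fun j l =>
    KLB.exists_lift_poly (P j l) (hv j l)
  choose Q hQ using hQ
  let T : (v i).integer := ⟨t, ht1⟩
  let Z : (v i).integer := ⟨z, hz1⟩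
  let E : Fin d → (v i).integer := fun j => ⟨e j, (le_NN i (e j)).trans (hON.NN_eq_one j).le⟩
  have hE : ∀ j, Z * E j = ∑ l, eval₂ (KLB.toInt K (v i)) T (Q j l) * E l := by
    intro j
    apply Subtype.ext
    have h1 : ((∑ l, eval₂ (KLB.toInt K (v i)) T (Q j l) * E l : (v i).integer) : F)
        = ∑ l, aeval t (P j l) * e l := by
      rw [← Subring.subtype_apply, map_sum]
      refine Finset.sum_congr rfl fun l _ => ?_
      rw [map_mul, Subring.subtype_apply, Subring.subtype_apply, KLB.coe_eval₂_toInt, hQ]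
    rw [h1]
    exact hP j
  -- not all `ρ (E j)` vanish
  obtain ⟨p1, hp1⟩ := (he.2 1).1 IsInt.one
  have hv1 : ∀ l n, v i (algebraMap K F ((p1 l).coeff n)) ≤ 1 := by
    intro l
    refine (S.G i (p1 l) 1).1 ?_
    rw [S.eq_aeval i o]
    refine (hON p1 1).1 ?_ l
    rw [← hp1, NN_one]
  have hQ1 : ∀ l, ∃ Q : (KLB.AK K (v i))[X], Q.map (KLB.AK K (v i)).subtype = p1 l := fun l =>
    KLB.exists_lift_poly (p1 l) (hv1 l)
  choose Q1 hQ1 using hQ1
  have hone : (1 : (v i).integer) = ∑ l, eval₂ (KLB.toInt K (v i)) T (Q1 l) * E l := by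
    apply Subtype.ext
    have h1 : ((∑ l, eval₂ (KLB.toInt K (v i)) T (Q1 l) * E l : (v i).integer) : F)
        = ∑ l, aeval t (p1 l) * e l := by
      rw [← Subring.subtype_apply, map_sum]
      refine Finset.sum_congr rfl fun l _ => ?_
      rw [map_mul, Subring.subtype_apply, Subring.subtype_apply, KLB.coe_eval₂_toInt, hQ1]
    rw [h1]
    exact hp1
  have hne : (fun l => ρ (E l)) ≠ 0 := by
    intro h0
    have h3 := congrArg ρ hone
    rw [map_one, map_sum] at h3
    have h4 : ∑ l, ρ (eval₂ (KLB.toInt K (v i)) T (Q1 l) * E l) = 0 := by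
      refine Finset.sum_eq_zero fun l _ => ?_
      rw [map_mul, show ρ (E l) = 0 from congrFun h0 l, mul_zero]
    rw [h4] at h3
    exact one_ne_zero h3
  refine KLB.intRed_isIntegralElem _ (fun j l => (Q j l).map (KLB.resK hρ)) (ρ Z) (fun l => ρ (E l))
    hne fun j => ?_
  rw [← map_mul, hE j, map_sum]
  refine Finset.sum_congr rfl fun l _ => ?_
  rw [map_mul, KLB.rho_aeval hρ]
  rfl

end Fermat.Agent.CAR.FQ2
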