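import Fermat.Agent.CAR.KLm.Basic
import Fermat.Agent.TOR.T1.Approx

/-!
# CAR / FQ2 : package FQ2-R5 : weak approximation for a finite family of rank one valuations separated by
elements `θ i`  (port of `TOR/T1/Approx.lean` to a family)
-/

set_option autoImplicit false

noncomputable section

namespace Fermat.Agent.CAR.FQ2

open Fermat.Agent.GAL.KL Fermat.Agent.CAR.KLm

variable {F Γ₀ ι : Type*} [Field F] [LinearOrderedCommGroupWithZero Γ₀]

/-- `θ i ≡ 1` at `v i`, `θ i ≡ 0` at the other valuations. -/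
structure Sep (v : ι → Valuation F Γ₀) (θ : ι → F) : Prop where
  one : ∀ i, v i (θ i - 1) < 1
  zero : ∀ i j, i ≠ j → v j (θ i) < 1

/-- a nonzero `γ'` with `γ' ≤ 1` and `γ' * c ≤ γ` for the finitely many `c ∈ s`. -/
theorem Approx_exists_small (s : Finset Γ₀) {γ : Γ₀} (hγ : γ ≠ 0) :
    ∃ γ' : Γ₀, γ' ≠ 0 ∧ γ' ≤ 1 ∧ ∀ c ∈ s, γ' * c ≤ γ := by
  obtain ⟨M, hM⟩ := s.exists_le
  have hC : (1 : Γ₀) ≤ max M 1 := le_max_right _ _
  have hC0 : max M 1 ≠ 0 := (lt_of_lt_of_le zero_lt_one hC).ne'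
  refine ⟨min (γ * (max M 1)⁻¹) 1, ?_, min_le_right _ _, fun c hc => ?_⟩
  · rcases min_choice (γ * (max M 1)⁻¹) 1 with h | h <;> rw [h]
    · exact mul_ne_zero hγ (inv_ne_zero hC0)
    · exact one_ne_zero
  · calc min (γ * (max M 1)⁻¹) 1 * c ≤ γ * (max M 1)⁻¹ * max M 1 :=
          mul_le_mul' (min_le_left _ _) ((hM c hc).trans (le_max_left _ _))
      _ = γ := by rw [mul_assoc, inv_mul_cancel₀ hC0, mul_one]

theorem Approx_mul_lt {a c γ' γ : Γ₀} (h : a < γ') (hc : γ' * c ≤ γ) (hγ : γ ≠ 0) : a * c < γ := by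
  rcases eq_or_ne c 0 with rfl | h0
  · rw [mul_zero]; exact zero_lt_iff.2 hγ
  · exact lt_of_lt_of_le (mul_lt_mul_of_pos_right h (zero_lt_iff.2 h0)) hc

variable [Fintype ι] {v : ι → Valuation F Γ₀} {θ : ι → F}

/-- approximate idempotents.  PROOF: `e i = θ^N / (θ^N + (1-θ)^N)`, `θ = θ i`, `N` large
(`T1.Approx_pow_lt`, `T1.Approx_den`; take the max of the finitely many `N₀`). -/
theorem exists_idem (hA : ∀ i, Arch (v i)) (hθ : Sep v θ) {γ : Γ₀} (hγ : γ ≠ 0) :
    ∃ e : ι → F, (∀ i, v i (e i - 1) < γ) ∧ ∀ i j, i ≠ j → v j (e i) < γ := by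
  classical
  have key : ∀ i, ∃ e : F, v i (e - 1) < γ ∧ ∀ j, i ≠ j → v j e < γ := by
    intro i
    have h1' : v i (1 - θ i) < 1 := by rw [Valuation.map_sub_swap]; exact hθ.one i
    have hx : ∀ j, ∃ N₀ : ℕ, ∀ N, N₀ ≤ N → v j (if j = i then 1 - θ i else θ i) ^ N < γ := by
      intro j
      refine TOR.T1.Approx_pow_lt (hA j) ?_ hγ
      by_cases hj : j = i
      · subst hj; rw [if_pos rfl]; exact h1'
      · rw [if_neg hj]; exact hθ.zero i j (Ne.symm hj)
    choose N₀ hN₀ using hx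
    set N := 1 + ∑ j, N₀ j with hN
    have hN0 : N ≠ 0 := by omega
    have hle : ∀ j, N₀ j ≤ N := fun j =>
      (Finset.single_le_sum (f := N₀) (fun _ _ => Nat.zero_le _) (Finset.mem_univ j)).trans
        (Nat.le_add_left _ _)
    have a1 : v i (θ i) = 1 := by
      have : θ i = 1 + (θ i - 1) := by ring
      rw [this, Valuation.map_add_eq_of_lt_left (v i) (by rw [map_one]; exact hθ.one i), map_one]
    have d1 : v i (θ i ^ N + (1 - θ i) ^ N) = 1 := TOR.T1.Approx_den a1 h1' hN0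
    have hne : θ i ^ N + (1 - θ i) ^ N ≠ 0 := by
      intro h
      rw [h, map_zero] at d1
      exact zero_ne_one d1
    refine ⟨θ i ^ N / (θ i ^ N + (1 - θ i) ^ N), ?_, fun j hj => ?_⟩
    · have : θ i ^ N / (θ i ^ N + (1 - θ i) ^ N) - 1 =
          -((1 - θ i) ^ N / (θ i ^ N + (1 - θ i) ^ N)) := by
        field_simp
        ring
      rw [this, Valuation.map_neg, map_div₀, d1, div_one, map_pow]
      have := hN₀ i N (hle i)
      rwa [if_pos rfl] at this
    · have h2 : v j (θ i) < 1 := hθ.zero i j hj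
      have a2 : v j (1 - θ i) = 1 := by
        rw [sub_eq_add_neg, Valuation.map_add_eq_of_lt_left (v j)
          (by rw [map_one, Valuation.map_neg]; exact h2), map_one]
      have d2 : v j (θ i ^ N + (1 - θ i) ^ N) = 1 := by
        rw [add_comm]; exact TOR.T1.Approx_den a2 h2 hN0
      rw [map_div₀, d2, div_one, map_pow]
      have := hN₀ j N (hle j)
      rwa [if_neg (Ne.symm hj)] at this
  choose e he1 he2 using key
  exact ⟨e, he1, he2⟩

/-- **weak approximation, additive form.**  PROOF: `G = ∑ i, e i * g i`, `e` from `exists_idem` for a `γ'`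
with `γ' * v j (g i) ≤ γ` for all `i j`. -/
theorem approx_fam (hA : ∀ i, Arch (v i)) (hθ : Sep v θ) (g : ι → F) {γ : Γ₀} (hγ : γ ≠ 0) :
    ∃ G : F, ∀ i, v i (G - g i) < γ := by
  classical
  obtain ⟨γ', hγ', -, hs⟩ := Approx_exists_small
    (Finset.univ.image fun ij : ι × ι => v ij.2 (g ij.1)) hγ
  have hs' : ∀ i j, γ' * v j (g i) ≤ γ := fun i j =>
    hs _ (Finset.mem_image.2 ⟨(i, j), Finset.mem_univ _, rfl⟩)
  obtain ⟨e, he1, he2⟩ := exists_idem hA hθ hγ'
  refine ⟨∑ i, e i * g i, fun j => ?_⟩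
  have h1 : ∑ i, e i * g i - g j = ∑ i, (if i = j then (e i - 1) * g i else e i * g i) := by
    have h2 : g j = ∑ i, (if i = j then g i else 0) := by
      rw [Finset.sum_ite_eq' Finset.univ j g, if_pos (Finset.mem_univ j)]
    conv_lhs => rw [h2]
    rw [← Finset.sum_sub_distrib]
    refine Finset.sum_congr rfl fun i _ => ?_
    by_cases hi : i = j
    · rw [if_pos hi, if_pos hi]; ring
    · rw [if_neg hi, if_neg hi, sub_zero]
  rw [h1]
  refine Valuation.map_sum_lt (v j) hγ fun i _ => ?_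
  by_cases hi : i = j
  · subst hi
    rw [if_pos rfl, map_mul]
    exact Approx_mul_lt (he1 i) (hs' i i) hγ
  · rw [if_neg hi, map_mul]
    exact Approx_mul_lt (he2 i j hi) (hs' i j) hγ

/-- **weak approximation, multiplicative form.** -/
theorem approx_fam_mul [Nonempty ι] (hA : ∀ i, Arch (v i)) (hθ : Sep v θ) (g : ι → F)
    (hg : ∀ i, g i ≠ 0) : ∃ z : F, z ≠ 0 ∧ ∀ i, v i (z / g i - 1) < 1 := by
  classical
  obtain ⟨γ', hγ', -, hs⟩ := Approx_exists_small
    (Finset.univ.image fun i : ι => (v i (g i))⁻¹) (one_ne_zero : (1 : Γ₀) ≠ 0)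
  obtain ⟨z, hz⟩ := approx_fam hA hθ g hγ'
  have key : ∀ i, v i (z / g i - 1) < 1 := by
    intro i
    have h1 : z / g i - 1 = (z - g i) * (g i)⁻¹ := by
      field_simp [hg i]
    rw [h1, map_mul, map_inv₀]
    exact Approx_mul_lt (hz i) (hs _ (Finset.mem_image.2 ⟨i, Finset.mem_univ _, rfl⟩)) one_ne_zero
  refine ⟨z, ?_, key⟩
  rintro rfl
  obtain ⟨i⟩ := (inferInstance : Nonempty ι)
  have := key i
  rw [zero_div, zero_sub, Valuation.map_neg, map_one] at this
  exact lt_irrefl _ this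

/-- one valuation can be isolated: for `z` arbitrary there is `e` with `v i (e - 1) < 1` and
`v j (e * z) < γ` for `j ≠ i`. -/
theorem exists_isolate (hA : ∀ i, Arch (v i)) (hθ : Sep v θ) (i : ι) (z : F) {γ : Γ₀} (hγ : γ ≠ 0) :
    ∃ e : F, v i (e - 1) < 1 ∧ ∀ j, j ≠ i → v j (e * z) < γ := by
  classical
  obtain ⟨γ', hγ', hle, hs⟩ := Approx_exists_small (Finset.univ.image fun j : ι => v j z) hγ
  obtain ⟨e, he1, he2⟩ := exists_idem hA hθ hγ'
  refine ⟨e i, lt_of_lt_of_le (he1 i) hle, fun j hj => ?_⟩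
  rw [map_mul]
  exact Approx_mul_lt (he2 i j (Ne.symm hj))
    (hs _ (Finset.mem_image.2 ⟨j, Finset.mem_univ _, rfl⟩)) hγ

end Fermat.Agent.CAR.FQ2
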