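import Fermat.Agent.CAR.FQ2.Approx
import Fermat.Agent.CAR.KLm.Basic
import Fermat.Agent.TOR.T1.Defs
import Fermat.Agent.GAL.KLB.IntRed

/-!
# CAR / FQ2 : package FQ2-R2 : the residue fields of a family with an orthonormal basis

If the reductions at `v i` of `t` and of an orthonormal `K(t)`-basis lie in a subfield `E ⊆ k((Q))` containing the
constants, then ALL reductions at `v i` lie in `E`.
-/

set_option autoImplicit false

open Polynomial ModularCurve AlgebraicCurve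

noncomputable section

namespace Fermat.Agent.CAR.FQ2

open Fermat.Agent.GAL.KL Fermat.Agent.GAL.KLC Fermat.Agent.CAR.KLm Fermat.Agent.TOR.T1
open Fermat.Agent.GAL

variable {K F k Γ₀ ι : Type*} [Field K] [Field F] [Algebra K F] [Field k]
  [LinearOrderedCommGroupWithZero Γ₀] [Fintype ι] [Nonempty ι]
  {v : ι → Valuation F Γ₀}

/-- reduction of `p(t)`, `p ∈ K[X]` with `v (p(t)) ≤ 1`: it lies in every subring containing the constants and `τ`.
PROOF: Gauss: all coefficients are integral; `KLB.exists_lift_poly`, `KLB.rho_aeval`, `KLB.resK`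
(as in `T1.isInt_rd2`), or directly by `Rd.sum`, `Rd.mul`, `Rd.pow` and `IsRed.const`. -/
theorem rd_aeval_mem {u : Valuation F Γ₀} {ρ : u.integer →+* LaurentSeries k} (hρ : IsRed K u ρ)
    {t : F} (hG : Gauss K u t) {τ : LaurentSeries k} (ht : Rd ρ t τ)
    (E : Subring (LaurentSeries k)) (hC : ∀ c : k, HahnSeries.C c ∈ E) (hτ : τ ∈ E)
    (p : K[X]) {φ : LaurentSeries k} (hp : Rd ρ (aeval t p) φ) : φ ∈ E := by
  have hc : ∀ i, u (algebraMap K F (p.coeff i)) ≤ 1 := (hG p 1).1 hp.le_one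
  have hex : ∀ i, ∃ c : k, Rd ρ (algebraMap K F (p.coeff i)) (HahnSeries.C c) := by
    intro i
    obtain ⟨c, hc'⟩ := hρ.const (p.coeff i) (hc i)
    exact ⟨c, hc i, hc'⟩
  choose c hc' using hex
  have hsum : Rd ρ (aeval t p) (∑ i ∈ Finset.range (p.natDegree + 1), HahnSeries.C (c i) * τ ^ i) := by
    rw [aeval_eq_sum_range]
    refine Rd.sum _ fun i _ => ?_
    rw [Algebra.smul_def]
    exact (hc' i).mul (ht.pow i)
  rw [hp.unique hsum]
  exact E.sum_mem fun i _ => E.mul_mem (hC _) (E.pow_mem hτ i)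

/-- **FQ2-R2a.**  PROOF: `Spans`: `s(t) z = ∑ p_j(t) b_j`, `s ≠ 0`.  By `IsRed.val` (or Gauss) rescale `s, p_j` by a constant
so that `v i (s(t)) = 1`.  `NN (s(t) z) ≤ 1` (`Setup.NN_aeval_mul`), so `v (p_j(t)) ≤ 1` by `ONm`.  Reduce at `v i`:
`σ φ = ∑ π_j β_j` with `σ ≠ 0` (`Rd.v_eq_one`/`rd_zero_iff`), `σ, π_j ∈ E` by `rd_aeval_mem`. -/
theorem rd_mem_of_NN_le {t : F} (S : Setup K v t) {o : ι} {d : ℕ}
    (b : Fin d → F) (hb : ONm K v o t b) (hbs : Spans K t b)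
    (i : ι) {ρ : (v i).integer →+* LaurentSeries k} (hρ : IsRed K (v i) ρ)
    (E : Subfield (LaurentSeries k)) (hC : ∀ c : k, HahnSeries.C c ∈ E)
    {τ : LaurentSeries k} (ht : Rd ρ t τ) (hτ : τ ∈ E)
    (hbE : ∀ j φ, Rd ρ (b j) φ → φ ∈ E)
    {z : F} {φ : LaurentSeries k} (h1 : Rd ρ z φ) (h2 : NN v z ≤ 1) : φ ∈ E := by
  obtain ⟨q, p, hq, hqp⟩ := hbs z
  have hq0 : aeval t q ≠ 0 := fun h => hq ((S.G i).inj q h)
  obtain ⟨a, ha⟩ := (S.G i).exists_const q
  have ha0 : algebraMap K F a ≠ 0 := by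
    intro h
    rw [h, map_zero, map_eq_zero] at ha
    exact hq0 ha
  have ha0' : a ≠ 0 := by
    rintro rfl
    exact ha0 (map_zero _)
  -- rescale
  set q' : K[X] := C a⁻¹ * q with hq'
  set p' : Fin d → K[X] := fun j => C a⁻¹ * p j with hp'
  have hvq' : v i (aeval t q') = 1 := by
    rw [hq', map_mul, aeval_C, map_mul, ha, ← map_mul, ← map_mul, inv_mul_cancel₀ ha0', map_one,
      map_one]
  have hqp' : aeval t q' * z = comb K t p' b := by
    rw [hp', comb_smul, ← hqp, hq', map_mul, mul_assoc]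
  have hNN : NN v (comb K t p' b) ≤ 1 := by
    rw [← hqp', S.NN_aeval_mul i, hvq', one_mul]
    exact h2
  have hpj : ∀ j, v i (aeval t (p' j)) ≤ 1 := by
    intro j
    rw [S.eq_aeval i o]
    exact (hb p' 1).1 hNN j
  have hbj : ∀ j, v i (b j) ≤ 1 := fun j => (le_NN i (b j)).trans (hb.NN_eq_one j).le
  choose π hπ using fun j => exists_rd (ρ := ρ) (hpj j)
  choose β hβ using fun j => exists_rd (ρ := ρ) (hbj j)
  obtain ⟨σ, hσ⟩ := exists_rd (ρ := ρ) hvq'.le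
  have hσ0 : σ ≠ 0 := by
    rintro rfl
    have := (rd_zero_iff hρ).1 hσ
    rw [hvq'] at this
    exact lt_irrefl _ this
  have hσE : σ ∈ E := rd_aeval_mem hρ (S.G i) ht E.toSubring hC hτ q' hσ
  have hπE : ∀ j, π j ∈ E := fun j => rd_aeval_mem hρ (S.G i) ht E.toSubring hC hτ (p' j) (hπ j)
  have hβE : ∀ j, β j ∈ E := fun j => hbE j _ (hβ j)
  have e1 : Rd ρ (aeval t q' * z) (σ * φ) := hσ.mul h1
  have e2 : Rd ρ (aeval t q' * z) (∑ j, π j * β j) := by
    rw [hqp']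
    exact Rd.sum _ fun j _ => (hπ j).mul (hβ j)
  have e3 : σ * φ ∈ E := by
    rw [e1.unique e2]
    exact E.sum_mem fun j _ => E.mul_mem (hπE j) (hβE j)
  have : φ = σ⁻¹ * (σ * φ) := by rw [← mul_assoc, inv_mul_cancel₀ hσ0, one_mul]
  rw [this]
  exact E.mul_mem (E.inv_mem hσE) e3

/-- **FQ2-R2.**  The same without `NN v z ≤ 1`.  PROOF: `exists_isolate` gives `e ≡ 1` at `v i` with `v j (e z) < 1`, `j ≠ i`;
`Rd ρ (e * z) φ`; apply `rd_mem_of_NN_le`. -/
theorem rd_mem {t : F} (S : Setup K v t) {o : ι} {d : ℕ}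
    (b : Fin d → F) (hb : ONm K v o t b) (hbs : Spans K t b)
    (hA : ∀ i, Arch (v i)) {θ : ι → F} (hθ : Sep v θ)
    (i : ι) {ρ : (v i).integer →+* LaurentSeries k} (hρ : IsRed K (v i) ρ)
    (E : Subfield (LaurentSeries k)) (hC : ∀ c : k, HahnSeries.C c ∈ E)
    {τ : LaurentSeries k} (ht : Rd ρ t τ) (hτ : τ ∈ E)
    (hbE : ∀ j φ, Rd ρ (b j) φ → φ ∈ E)
    {z : F} {φ : LaurentSeries k} (h1 : Rd ρ z φ) : φ ∈ E := by
  obtain ⟨e, he1, he2⟩ := exists_isolate hA hθ i z (γ := 1) one_ne_zero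
  have hre : Rd ρ e 1 := Rd.one.of_sub_lt hρ he1
  have hrez : Rd ρ (e * z) φ := by
    have := hre.mul h1
    rwa [one_mul] at this
  refine rd_mem_of_NN_le S b hb hbs i hρ E hC ht hτ hbE hrez ?_
  rw [NN_le_iff]
  intro j
  by_cases hj : j = i
  · subst hj
    exact hrez.le_one
  · exact (he2 j hj).le

end Fermat.Agent.CAR.FQ2
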